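import Fermat.Agent.H27.ESD.Interfaces2
import Fermat.Agent.H21.EsC.Interfaces
import Fermat.Agent.H96.ESD.AuxLevelS18
import Fermat.Agent.H89.ESDA3
import Fermat.Agent.H16.FFPrincipal
import Fermat.Agent.H69.DegreeC
import Fermat.Agent.H65.EsC.DegreeAlpha
import Fermat.Agent.H58.RR.Modular

/-!
# P-ES / ES-D-LC (row 339, helper9): the level change statement

`levelChange_of : RelFundamentalIdentityStatement → RelNormFormulaStatement →
  LevelChangeStatement`.

For a wild pair `(N, ℓ)` (`ℓ = 2`, `3 ∤ N` resp. `ℓ = 3`, `2 ∤ N`) the conclusion of S18 at level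
`N` follows from the conclusion of S18 at the tame auxiliary level `M * N` (`M = 3` resp. `2`),
because the degree `[F(M N) : F(N)] = M + 1` is a power of `ℓ` and the reduction maps at the two
levels are automatically compatible on divisors of torsion class.

The abstract argument is `Fermat.Agent.H96.s18_of_auxLevel` (equivalently
`Fermat.Agent.H9.ESD.s18At_of_level`); here all its modular inputs are discharged from landed
unconditional results:

* `HasPrincipalDivisors` in characteristic `ℓ`: `H89.ffModLStatement` + `H16.ffb_hasPrincipalDivisors`;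
* `HasPrincipalDivisors` over `ℚ̄`: `H58.hasPrincipalDivisors_modularFunctionFieldBar`;
* finiteness / integrality of the two inclusions: `H69.DegC.finrank_bar_eq`, `H89`;
* all places have degree one: `H29.place_deg_eq_one`;
* the degree `M + 1`: `H69.DegC.finrank_bar_eq`, `H57.index_Gamma0`,
  `H57.dedekindPsi_mul_prime_of_not_dvd`.

The only remaining hypotheses are the two generic characteristic-zero statements of ES-C
(relative fundamental identity and norm formula).
-/

set_option autoImplicit false
set_option synthInstance.maxHeartbeats 400000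
set_option linter.style.haveILetI false

noncomputable section

namespace Fermat.Agent.H9.ESD

open AlgebraicCurve ModularCurve IntermediateField
open scoped MatrixGroups

section Generic

variable {K E : Type*} [Field K] [Field E] [Algebra K E]

/-- Tower law for an inclusion `K(x) ≤ A ≤ B` of intermediate fields, in terms of the degree
of `B` over the subfield generated by `x` inside `B`. -/
theorem lc_finrank_mul_finrankAlong {A B : IntermediateField K E} (h : A ≤ B)
    (x : A) :
    Module.finrank K⟮x⟯ A * finrankAlong K (IntermediateField.inclusion h)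
      = Module.finrank K⟮IntermediateField.inclusion h x⟯ B := by
  rw [Fermat.Agent.H65.finrank_adjoin_coe_eq_relfinrank,
    Fermat.Agent.H65.finrank_adjoin_coe_eq_relfinrank,
    Fermat.Agent.H65.finrankAlong_inclusion_eq_relfinrank]
  have hJ : K⟮((x : ↥A) : E)⟯ ≤ A := by
    rw [IntermediateField.adjoin_le_iff]
    rintro _ rfl
    exact x.2
  exact IntermediateField.relfinrank_mul_relfinrank hJ h

/-- A nonzero degree along `φ` means that `φ` is finite. -/
theorem lc_finiteAlong_of_finrankAlong_ne_zero {F F' : Type*} [Field F] [Field F']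
    [Algebra K F] [Algebra K F'] (φ : F →ₐ[K] F') (h : finrankAlong K φ ≠ 0) :
    FiniteAlong K φ := by
  unfold FiniteAlong
  unfold finrankAlong at h
  letI := algebraAlong φ
  exact Module.finite_of_finrank_pos (Nat.pos_of_ne_zero h)

/-- A finite `φ` is integral. -/
theorem lc_isIntegral_of_finiteAlong {F F' : Type*} [Field F] [Field F']
    [Algebra K F] [Algebra K F'] (φ : F →ₐ[K] F') (h : FiniteAlong K φ) :
    φ.toRingHom.IsIntegral := by
  letI := algebraAlong φ
  haveI : Module.Finite F F' := h
  intro b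
  exact (Algebra.IsIntegral.of_finite F F').isIntegral b

/-- If `B` is finite over `K(x)` for some `x ∈ A ≤ B`, the inclusion `A → B` has nonzero
degree. -/
theorem lc_finrankAlong_inclusion_ne_zero {A B : IntermediateField K E} (h : A ≤ B)
    (x : A) [FiniteDimensional K⟮IntermediateField.inclusion h x⟯ B] :
    finrankAlong K (IntermediateField.inclusion h) ≠ 0 := by
  intro h0
  have h1 := lc_finrank_mul_finrankAlong h x
  rw [h0, mul_zero] at h1
  have h2 : 0 < Module.finrank K⟮IntermediateField.inclusion h x⟯ B := Module.finrank_pos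
  omega

end Generic

section GenericAlong

variable {K F F' : Type} [Field K] [Field F] [Field F'] [Algebra K F] [Algebra K F']
  [IsAlgClosed K] [CharZero K] [HasPrincipalDivisors K F']

/-- The relative fundamental identity of ES-C in `Along` form. -/
theorem lc_fundamentalIdentityAlong_of
    (hFI : Fermat.Agent.H21.EsC.RelFundamentalIdentityStatement)
    (φ : F →ₐ[K] F') (hfin : FiniteAlong K φ) (hφ : φ.toRingHom.IsIntegral)
    (hff : ∃ x : F, Transcendental K x ∧ FiniteDimensional K⟮x⟯ F) :
    FundamentalIdentityAlong K φ hφ := by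
  unfold FundamentalIdentityAlong
  letI := algebraAlong φ
  haveI := isScalarTower_along φ
  haveI : Module.Finite F F' := hfin
  exact hFI K F F' hff

/-- The relative norm formula of ES-C in `Along` form. -/
theorem lc_normFormulaAlong_of
    (hNF : Fermat.Agent.H21.EsC.RelNormFormulaStatement)
    (φ : F →ₐ[K] F') (hfin : FiniteAlong K φ)
    (hff : ∃ x : F, Transcendental K x ∧ FiniteDimensional K⟮x⟯ F) :
    NormFormulaAlong K φ hfin := by
  unfold NormFormulaAlong
  letI := algebraAlong φ
  haveI := isScalarTower_along φ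
  haveI : Module.Finite F F' := hfin
  exact hNF K F F' hff

end GenericAlong

section Modular

/-- monotonicity of the base change of Laurent series fields -/
theorem lc_laurentBaseChange_mono (L : Type*) [Field L] [Algebra ℚ L]
    {F₀ F₁ : IntermediateField ℚ (LaurentSeries ℚ)} (h : F₀ ≤ F₁) :
    laurentBaseChange L F₀ ≤ laurentBaseChange L F₁ := by
  rw [laurentBaseChange, IntermediateField.adjoin_le_iff]
  rintro _ ⟨y, hy, rfl⟩
  exact coeffEmb_mem_laurentBaseChange L (h hy)

/-- `ℚ̄(X₀(N)) ≤ ℚ̄(X₀(N'))` for `N ∣ N'`. -/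
theorem lc_bar_le {N N' : ℕ} [NeZero N] [NeZero N'] (h : N ∣ N') :
    modularFunctionFieldBar N ≤ modularFunctionFieldBar N' :=
  lc_laurentBaseChange_mono _ (full_degeneracy_le h)

/-- The degree of `ℚ̄(X₀(N p))` over `ℚ̄(X₀(N))` is `p + 1` for a prime `p ∤ N`. -/
theorem lc_finrankAlong_bar {N N' p : ℕ} [NeZero N] [NeZero N'] (hN' : N' = p * N)
    (hp : p.Prime) (hpN : ¬ p ∣ N) (h : modularFunctionFieldBar N ≤ modularFunctionFieldBar N') :
    finrankAlong (AlgebraicClosure ℚ) (IntermediateField.inclusion h) = p + 1 := by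
  have h1 := lc_finrank_mul_finrankAlong h (Fermat.Agent.H23.jBar N)
  have hj : IntermediateField.inclusion h (Fermat.Agent.H23.jBar N) = Fermat.Agent.H23.jBar N' :=
    rfl
  rw [hj, (Fermat.Agent.H69.DegC.finrank_bar_eq N).2,
    (Fermat.Agent.H69.DegC.finrank_bar_eq N').2] at h1
  have hi1 : Nat.card (SL(2, ℤ) ⧸ CongruenceSubgroup.Gamma0 N) = ModularCurve.dedekindPsi N :=
    Fermat.Agent.H57.index_Gamma0 N
  have hi2 : Nat.card (SL(2, ℤ) ⧸ CongruenceSubgroup.Gamma0 N') = ModularCurve.dedekindPsi N' :=
    Fermat.Agent.H57.index_Gamma0 N'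
  have hψ : ModularCurve.dedekindPsi N' = (p + 1) * ModularCurve.dedekindPsi N := by
    rw [hN', mul_comm p N,
      Fermat.Agent.H57.dedekindPsi_mul_prime_of_not_dvd (NeZero.ne N) hp hpN]
  rw [hi1, hi2, hψ, mul_comm] at h1
  have hpos : 0 < ModularCurve.dedekindPsi N := by
    rw [← Fermat.Agent.H57.index_Gamma0 N]
    have : (CongruenceSubgroup.Gamma0 N).FiniteIndex := inferInstance
    exact Nat.pos_of_ne_zero (Subgroup.FiniteIndex.index_ne_zero)
  exact Nat.eq_of_mul_eq_mul_right hpos h1

/-- Principal divisors exist on the reduction field `F_k(N)`, `ℓ ∤ N` (any characteristic: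
`H89.ffModLStatement` + `H16.ffb_hasPrincipalDivisors`). -/
theorem lc_hasPrincipalDivisors_modL (N : ℕ) [NeZero N] (ℓ : ℕ) [Fact ℓ.Prime] (hℓN : ¬ ℓ ∣ N)
    (A : ValuationSubring (AlgebraicClosure ℚ)) (hA : A.LiesOverPrime ℓ) :
    HasPrincipalDivisors (IsLocalRing.ResidueField A)
      ↥(modularFunctionFieldFullC (IsLocalRing.ResidueField A) N) := by
  obtain ⟨hk, x, -, hfin, hsep⟩ := Fermat.Agent.H89.ffModLStatement N ℓ hℓN A hA
  haveI := hk
  haveI := hfin
  haveI := hsep
  exact Fermat.Agent.H16.ffb_hasPrincipalDivisors x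

/-- The inclusion `F_k(N) ≤ F_k(N')`, `N ∣ N'`, `ℓ ∤ N'`, is finite. -/
theorem lc_finiteAlong_modL {N N' : ℕ} [NeZero N] [NeZero N'] (hNN' : N ∣ N') (ℓ : ℕ)
    [Fact ℓ.Prime] (hℓN' : ¬ ℓ ∣ N')
    (A : ValuationSubring (AlgebraicClosure ℚ)) (hA : A.LiesOverPrime ℓ) :
    FiniteAlong (IsLocalRing.ResidueField A)
      (IntermediateField.inclusion
        (full_degeneracyC_le (IsLocalRing.ResidueField A) hNN')) := by
  haveI hk : IsAlgClosed (IsLocalRing.ResidueField A) := Fermat.Agent.H89.isAlgClosed_residueField A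
  haveI hchar : CharP (IsLocalRing.ResidueField A) ℓ :=
    Fermat.Agent.H89.charP_residueField_of_liesOverPrime A ℓ hA
  have hN'0 : (N' : IsLocalRing.ResidueField A) ≠ 0 := by
    intro h
    exact hℓN' ((CharP.cast_eq_zero_iff (IsLocalRing.ResidueField A) ℓ N').mp h)
  have hfin := Fermat.Agent.H89.finiteDimensional_fullC (IsLocalRing.ResidueField A) N'
    (Fermat.Agent.H67.hasHeckeData_of_complex Fermat.Agent.H17.hasHeckeData_complex _) hN'0
  refine lc_finiteAlong_of_finrankAlong_ne_zero _ ?_
  haveI : FiniteDimensional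
      (IsLocalRing.ResidueField A)⟮IntermediateField.inclusion
        (full_degeneracyC_le (IsLocalRing.ResidueField A) hNN')
        (⟨jqModC (IsLocalRing.ResidueField A), jqModC_mem_full (IsLocalRing.ResidueField A) N⟩ :
          ↥(modularFunctionFieldFullC (IsLocalRing.ResidueField A) N))⟯
      ↥(modularFunctionFieldFullC (IsLocalRing.ResidueField A) N') := hfin
  exact lc_finrankAlong_inclusion_ne_zero _
    (⟨jqModC (IsLocalRing.ResidueField A), jqModC_mem_full (IsLocalRing.ResidueField A) N⟩ :
      ↥(modularFunctionFieldFullC (IsLocalRing.ResidueField A) N))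

/-- Every place of `ℚ̄(X₀(N))` has degree one. -/
theorem lc_deg_eq_one_bar (N : ℕ) [NeZero N]
    (v : Place (AlgebraicClosure ℚ) ↥(modularFunctionFieldBar N)) : v.deg = 1 := by
  haveI := (Fermat.Agent.H69.DegC.finrank_bar_eq N).1
  exact Fermat.Agent.H29.place_deg_eq_one (y := Fermat.Agent.H23.jBar N) v

/-- `ℚ̄(X₀(N))` is a function field of one variable. -/
theorem lc_isFunctionField_bar (N : ℕ) [NeZero N] :
    ∃ x : ↥(modularFunctionFieldBar N), Transcendental (AlgebraicClosure ℚ) x ∧
      FiniteDimensional (AlgebraicClosure ℚ)⟮x⟯ ↥(modularFunctionFieldBar N) :=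
  ⟨Fermat.Agent.H23.jBar N, Fermat.Agent.H69.transcendental_jBar N,
    (Fermat.Agent.H69.DegC.finrank_bar_eq N).1⟩

end Modular

section Main

/-- **ES-D-LC (row 339).**  The level change statement, from the two generic
characteristic-zero statements of ES-C (relative fundamental identity, norm formula). -/
theorem levelChange_of (hFI : Fermat.Agent.H21.EsC.RelFundamentalIdentityStatement)
    (hNF : Fermat.Agent.H21.EsC.RelNormFormulaStatement) :
    Fermat.Agent.H27.ESD.LevelChangeStatement := by
  intro N _ M ℓ _ _ hMℓ hMN hℓN A hA h' hS18' h m hm z hmz hz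
  have hℓ : ℓ.Prime := Fact.out
  have hM : M.Prime := by
    rcases hMℓ with ⟨rfl, -⟩ | ⟨rfl, -⟩ <;> norm_num
  have hℓM : ¬ ℓ ∣ M := by
    rcases hMℓ with ⟨rfl, rfl⟩ | ⟨rfl, rfl⟩ <;> norm_num
  have hℓMN : ¬ ℓ ∣ M * N := by
    intro hd
    rcases (Nat.Prime.dvd_mul hℓ).mp hd with hd | hd
    · exact hℓM hd
    · exact hℓN hd
  have hNN' : N ∣ M * N := dvd_mul_left N M
  -- the two inclusions
  have hFF' : modularFunctionFieldBar N ≤ modularFunctionFieldBar (M * N) := lc_bar_le hNN'
  have hkk' : modularFunctionFieldFullC (IsLocalRing.ResidueField A) N ≤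
      modularFunctionFieldFullC (IsLocalRing.ResidueField A) (M * N) :=
    full_degeneracyC_le (IsLocalRing.ResidueField A) hNN'
  -- principal divisors
  haveI hPL : HasPrincipalDivisors (AlgebraicClosure ℚ) ↥(modularFunctionFieldBar (M * N)) :=
    Fermat.Agent.H58.hasPrincipalDivisors_modularFunctionFieldBar (M * N)
  haveI hPk : HasPrincipalDivisors (IsLocalRing.ResidueField A)
      ↥(modularFunctionFieldFullC (IsLocalRing.ResidueField A) (M * N)) :=
    lc_hasPrincipalDivisors_modL (M * N) ℓ hℓMN A hA
  -- degrees and finiteness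
  have hdeg : finrankAlong (AlgebraicClosure ℚ) (IntermediateField.inclusion hFF') = M + 1 :=
    lc_finrankAlong_bar rfl hM hMN hFF'
  have hfin : FiniteAlong (AlgebraicClosure ℚ) (IntermediateField.inclusion hFF') :=
    lc_finiteAlong_of_finrankAlong_ne_zero _ (by rw [hdeg]; omega)
  have hφ : (IntermediateField.inclusion hFF').toRingHom.IsIntegral :=
    lc_isIntegral_of_finiteAlong _ hfin
  have hfink : FiniteAlong (IsLocalRing.ResidueField A) (IntermediateField.inclusion hkk') :=
    lc_finiteAlong_modL hNN' ℓ hℓMN A hA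
  have hψ : (IntermediateField.inclusion hkk').toRingHom.IsIntegral :=
    lc_isIntegral_of_finiteAlong _ hfink
  -- function field data in characteristic zero
  have hff := lc_isFunctionField_bar N
  have hFI' : FundamentalIdentityAlong (AlgebraicClosure ℚ)
      (IntermediateField.inclusion hFF') hφ :=
    lc_fundamentalIdentityAlong_of hFI _ hfin hφ hff
  have hNF' : NormFormulaAlong (AlgebraicClosure ℚ) (IntermediateField.inclusion hFF') hfin :=
    lc_normFormulaAlong_of hNF _ hfin hff
  -- all places have degree one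
  have hd1 : ∀ v : Place (AlgebraicClosure ℚ) ↥(modularFunctionFieldBar N), v.deg = 1 :=
    lc_deg_eq_one_bar N
  have hd1' : ∀ v : Place (AlgebraicClosure ℚ) ↥(modularFunctionFieldBar (M * N)),
      v.deg = 1 :=
    lc_deg_eq_one_bar (M * N)
  -- the degree is a power of `ℓ`
  have hpow : ∃ a : ℕ,
      finrankAlong (AlgebraicClosure ℚ) (IntermediateField.inclusion hFF') = ℓ ^ a := by
    rw [hdeg]
    rcases hMℓ with ⟨rfl, rfl⟩ | ⟨rfl, rfl⟩
    · exact ⟨2, by norm_num⟩
    · exact ⟨1, by norm_num⟩
  exact Fermat.Agent.H96.s18_of_auxLevel hFF' hkk' hφ hψ hFI' hfin hNF' hd1 hd1' hpow h'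
    hS18' h m hm z hmz hz

end Main

end Fermat.Agent.H9.ESD

end
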