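import Fermat.Agent.H9.ESD.LevelChangeFinal
import Fermat.Agent.H49.ES.EsCAdapters

/-!
# P-ES / ES-D-LC (row 339, helper9): the level change statement, unconditional

`levelChange : Fermat.Agent.H27.ESD.LevelChangeStatement`, from `levelChange_of` and the two
generic function-field statements proved by helper49 (`Fermat.Agent.H49.ES.EsCAdapters`).
-/

set_option autoImplicit false

namespace Fermat.Agent.H9.ESD

/-- **ES-D-LC (official target T5), unconditional.** -/
theorem levelChange : Fermat.Agent.H27.ESD.LevelChangeStatement :=
  levelChange_of Fermat.Agent.H49.relFundamentalIdentityStatement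
    Fermat.Agent.H49.relNormFormulaStatement

end Fermat.Agent.H9.ESD
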