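import Mathlib
import Fermat.Prelude.Def_ModularCurve_ReductionModL

/-!
# P-ES / ES-D: reduction of torsion classes does not depend on the place reduction `r`

Two place reductions `r₁`, `r₂` satisfying the prelude axioms `IsPlaceReductionAlong` agree on
principal divisors (both send `div y` to `div (Red y)` on the integral generators).  Since the
group of divisors is torsion free, they agree on every divisor `D` with `m • D` principal,
`m ≠ 0`.  Hence the induced maps on `Pic⁰` agree on all torsion classes.

No divisibility of `Pic⁰` and no uniqueness of `r` is needed.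
-/

set_option autoImplicit false

namespace Fermat.Agent.H9.ESD

open AlgebraicCurve ModularCurve

/-- The group of divisors is torsion free. -/
theorem divisor_eq_of_nsmul_eq {K F : Type*} [Field K] [Field F] [Algebra K F]
    {m : ℕ} (hm : m ≠ 0) {E₁ E₂ : Divisor K F} (h : m • E₁ = m • E₂) : E₁ = E₂ := by
  ext Q
  have hQ := congrArg (fun E : Divisor K F => E Q) h
  simp only [Finsupp.smul_apply, nsmul_eq_mul] at hQ
  exact mul_left_cancel₀ (by exact_mod_cast hm) hQ

section T1

variable {L : Type*} [Field L] [Algebra ℚ L] {A : ValuationSubring L}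
variable {k : Type*} [Field k] {π : A →+* k} {N : ℕ}
variable {r₁ r₂ : Place L (laurentBaseChange L (modularFunctionFieldFull N)) →
  Place k (modularFunctionFieldFullC k N)}

/-- Two place reductions agree on the integral principal divisors. -/
theorem mapDomain_eq_of_mem_integral (h₁ : IsPlaceReductionAlong A π N r₁)
    (h₂ : IsPlaceReductionAlong A π N r₂)
    {D : Divisor L (laurentBaseChange L (modularFunctionFieldFull N))}
    (hD : D ∈ integralPrincipalDivisors A π N) :
    Finsupp.mapDomain r₁ D = Finsupp.mapDomain r₂ D := by
  obtain ⟨y, hy, hyk, hne, hDy⟩ := hD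
  ext Q
  rw [h₁.2 y hy hyk hne D hDy Q, h₂.2 y hy hyk hne D hDy Q]

/-- Two place reductions agree on all principal divisors. -/
theorem mapDomain_eq_of_mem_principal (h₁ : IsPlaceReductionAlong A π N r₁)
    (h₂ : IsPlaceReductionAlong A π N r₂) (hgen : PrincipalGeneratedByIntegral A π N)
    {D : Divisor L (laurentBaseChange L (modularFunctionFieldFull N))}
    (hD : D ∈ Divisor.principal (K := L) (F := laurentBaseChange L (modularFunctionFieldFull N))) :
    Finsupp.mapDomain r₁ D = Finsupp.mapDomain r₂ D := by
  have hD' := hgen hD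
  clear hD
  induction hD' using AddSubgroup.closure_induction with
  | mem E hE => exact mapDomain_eq_of_mem_integral h₁ h₂ hE
  | zero => rw [Finsupp.mapDomain_zero, Finsupp.mapDomain_zero]
  | add E E' _ _ hE hE' => rw [Finsupp.mapDomain_add, Finsupp.mapDomain_add, hE, hE']
  | neg E _ hE =>
    rw [← Finsupp.mapDomain.addMonoidHom_apply, ← Finsupp.mapDomain.addMonoidHom_apply,
      map_neg, map_neg, Finsupp.mapDomain.addMonoidHom_apply,
      Finsupp.mapDomain.addMonoidHom_apply, hE]

/-- **(T1), divisor form.**  Two place reductions agree on every divisor a nonzero multiple of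
which is principal. -/
theorem mapDomain_eq_of_nsmul_mem_principal (h₁ : IsPlaceReductionAlong A π N r₁)
    (h₂ : IsPlaceReductionAlong A π N r₂) (hgen : PrincipalGeneratedByIntegral A π N)
    {m : ℕ} (hm : m ≠ 0)
    {D : Divisor L (laurentBaseChange L (modularFunctionFieldFull N))}
    (hD : m • D ∈
      Divisor.principal (K := L) (F := laurentBaseChange L (modularFunctionFieldFull N))) :
    Finsupp.mapDomain r₁ D = Finsupp.mapDomain r₂ D := by
  apply divisor_eq_of_nsmul_eq hm
  have h := mapDomain_eq_of_mem_principal h₁ h₂ hgen hD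
  rw [← Finsupp.mapDomain.addMonoidHom_apply, ← Finsupp.mapDomain.addMonoidHom_apply,
    map_nsmul, map_nsmul] at h
  exact h

/-- **(T1), class form.**  The maps induced on `Pic⁰` by two place reductions agree on torsion
classes. -/
theorem reductionPic0Along_eq_of_nsmul_eq_zero (h₁ : IsPlaceReductionAlong A π N r₁)
    (h₂ : IsPlaceReductionAlong A π N r₂) (hgen : PrincipalGeneratedByIntegral A π N)
    {m : ℕ} (hm : m ≠ 0)
    (z : Pic0 L (laurentBaseChange L (modularFunctionFieldFull N))) (hz : m • z = 0) :
    reductionPic0Along r₁ h₁ hgen z = reductionPic0Along r₂ h₂ hgen z := by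
  obtain ⟨D, rfl⟩ := Pic0.mk_surjective z
  rw [reductionPic0Along_mk, reductionPic0Along_mk]
  congr 1
  apply Subtype.ext
  rw [coe_reductionDegZeroAlong, coe_reductionDegZeroAlong]
  apply mapDomain_eq_of_nsmul_mem_principal h₁ h₂ hgen hm
  have h0 : Pic0.mk (m • D) = 0 := hz
  have hmem := (QuotientAddGroup.eq_zero_iff (m • D)).mp h0
  rw [AddSubgroup.mem_addSubgroupOf] at hmem
  simpa using hmem

end T1

end Fermat.Agent.H9.ESD
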