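import Mathlib
import Fermat.Prelude.Def_ModularCurve_ReductionModL
import Fermat.Prelude.Def_ModularCurve_HeckeOperator
import Fermat.Agent.H9.ESD.TorsionIndep

/-!
# P-ES / ES-D: level change for the reduction map (the wild pairs from a tame auxiliary level)

Let `N ∣ N' = N * M`.  The function field `F = F_L(N)` sits inside `F' = F_L(N')` (prelude:
`heckeAlphaBar L N M`), and likewise `F_k(N) ≤ F_k(N')` in characteristic `ℓ`.
If `r` and `r'` are place reductions at the levels `N` and `N'` (prelude axioms), then

  `r'_* ∘ pullback_L` and `pullback_k ∘ r_*`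

agree on principal divisors of `F`, hence (torsion-freeness of the divisor group) on every
divisor a nonzero multiple of which is principal.  Consequently, if a torsion class `z` of
level `N` reduces to `0`, so does its pullback to level `N'`; if reduction is injective on the
relevant torsion at level `N'`, the pullback of `z` vanishes and `[F' : F] • z = 0`.
-/

set_option autoImplicit false
set_option synthInstance.maxHeartbeats 400000

namespace Fermat.Agent.H9.ESD

open AlgebraicCurve ModularCurve

section General

variable {K F F' : Type*} [Field K] [Field F] [Field F'] [Algebra K F] [Algebra K F']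

/-- The pullback of the divisor of `f` is the divisor of `φ f`. -/
theorem pullbackAlong_apply_eq_ord [HasPrincipalDivisors K F'] (φ : F →ₐ[K] F')
    (hφ : φ.toRingHom.IsIntegral) {f : F} {D : Divisor K F}
    (hD : ∀ v : Place K F, D v = v.ord f) (w : Place K F') :
    Divisor.pullbackAlong φ hφ D w = w.ord (φ f) := by
  rw [Divisor.pullbackAlong_apply, hD, Place.ord_restrictAlong φ hφ]

/-- `pushforward ∘ pullback` is multiplication by the degree, provided `∑ e f = n`. -/
theorem pushforwardAlong_pullbackAlong [HasPrincipalDivisors K F'] (φ : F →ₐ[K] F')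
    (hφ : φ.toRingHom.IsIntegral)
    (hsum : ∀ v : Place K F, ∑ w ∈ Place.fiberAlong φ hφ v,
      (Place.ramificationIndexAlong φ w : ℤ) * (Place.inertiaDegAlong φ hφ w : ℤ)
        = (finrankAlong K φ : ℤ))
    (D : Divisor K F) :
    Divisor.pushforwardAlong φ hφ (Divisor.pullbackAlong φ hφ D) = finrankAlong K φ • D := by
  classical
  induction D using Finsupp.induction with
  | zero => simp
  | single_add v a D _ _ ih =>
    rw [map_add, map_add, ih, smul_add]
    congr 1
    rw [Divisor.pullbackAlong_single, map_sum]
    have h1 : ∀ w ∈ Place.fiberAlong φ hφ v,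
        Divisor.pushforwardAlong φ hφ (Finsupp.single w (a * (w.ramificationIndexAlong φ : ℤ)))
          = Finsupp.single v (a * ((w.ramificationIndexAlong φ : ℤ) *
              (w.inertiaDegAlong φ hφ : ℤ))) := by
      intro w hw
      rw [Divisor.pushforwardAlong_single, Place.mem_fiberAlong.mp hw, mul_assoc]
    rw [Finset.sum_congr rfl h1, ← Finsupp.single_finsetSum, ← Finset.mul_sum, hsum v]
    rw [Finsupp.smul_single, nsmul_eq_mul, mul_comm]

end General

section T2

variable {L : Type*} [Field L] [Algebra ℚ L] {A : ValuationSubring L}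
variable {k : Type*} [Field k] {π : A →+* k}
variable (N M : ℕ) [NeZero N] [NeZero M]

variable (k) in
/-- The inclusion `F_k(N) → F_k(N * M)` in characteristic `ℓ`. -/
noncomputable def lvlK : modularFunctionFieldFullC k N →ₐ[k] modularFunctionFieldFullC k (N * M) :=
  IntermediateField.inclusion (full_degeneracyC_le k (dvd_mul_right N M))

@[simp]
theorem coe_lvlK (x : modularFunctionFieldFullC k N) :
    (lvlK k N M x : LaurentSeries k) = (x : LaurentSeries k) :=
  IntermediateField.coe_inclusion _ x

variable {N M}
variable {r : Place L (laurentBaseChange L (modularFunctionFieldFull N)) →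
  Place k (modularFunctionFieldFullC k N)}
variable {r' : Place L (laurentBaseChange L (modularFunctionFieldFull (N * M))) →
  Place k (modularFunctionFieldFullC k (N * M))}
variable [HasPrincipalDivisors L (laurentBaseChange L (modularFunctionFieldFull (N * M)))]
variable [HasPrincipalDivisors k (modularFunctionFieldFullC k (N * M))]

/-- `r'_* ∘ pullback` and `pullback ∘ r_*` agree on the integral principal divisors. -/
theorem mapDomain_pullback_of_mem_integral (hr : IsPlaceReductionAlong A π N r)
    (hr' : IsPlaceReductionAlong A π (N * M) r')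
    (hφ : (heckeAlphaBar L N M).toRingHom.IsIntegral)
    (hφk : (lvlK k N M).toRingHom.IsIntegral)
    {D : Divisor L (laurentBaseChange L (modularFunctionFieldFull N))}
    (hD : D ∈ integralPrincipalDivisors A π N) :
    Finsupp.mapDomain r' (Divisor.pullbackAlong (heckeAlphaBar L N M) hφ D) =
      Divisor.pullbackAlong (lvlK k N M) hφk (Finsupp.mapDomain r D) := by
  obtain ⟨y, hy, hyk, hne, hDy⟩ := hD
  have hy' : coeffMap A.subtype y ∈ laurentBaseChange L (modularFunctionFieldFull (N * M)) :=
    (heckeAlphaBar L N M ⟨_, hy⟩).2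
  have hyk' : coeffMap π y ∈ modularFunctionFieldFullC k (N * M) :=
    full_degeneracyC_le k (dvd_mul_right N M) hyk
  ext Q
  have hL : ∀ P, Divisor.pullbackAlong (heckeAlphaBar L N M) hφ D P =
      P.ord (⟨coeffMap A.subtype y, hy'⟩ :
        laurentBaseChange L (modularFunctionFieldFull (N * M))) := by
    intro P
    rw [pullbackAlong_apply_eq_ord _ hφ hDy P]
    rfl
  rw [hr'.2 y hy' hyk' hne _ hL Q]
  have hK : ∀ Q₀, Finsupp.mapDomain r D Q₀ =
      Q₀.ord (⟨coeffMap π y, hyk⟩ : modularFunctionFieldFullC k N) :=
    fun Q₀ => hr.2 y hy hyk hne D hDy Q₀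
  rw [pullbackAlong_apply_eq_ord _ hφk hK Q]
  rfl

/-- `r'_* ∘ pullback` and `pullback ∘ r_*` agree on principal divisors. -/
theorem mapDomain_pullback_of_mem_principal (hr : IsPlaceReductionAlong A π N r)
    (hr' : IsPlaceReductionAlong A π (N * M) r')
    (hgen : PrincipalGeneratedByIntegral A π N)
    (hφ : (heckeAlphaBar L N M).toRingHom.IsIntegral)
    (hφk : (lvlK k N M).toRingHom.IsIntegral)
    {D : Divisor L (laurentBaseChange L (modularFunctionFieldFull N))}
    (hD : D ∈ Divisor.principal (K := L) (F := laurentBaseChange L (modularFunctionFieldFull N))) :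
    Finsupp.mapDomain r' (Divisor.pullbackAlong (heckeAlphaBar L N M) hφ D) =
      Divisor.pullbackAlong (lvlK k N M) hφk (Finsupp.mapDomain r D) := by
  have hD' := hgen hD
  clear hD
  induction hD' using AddSubgroup.closure_induction with
  | mem E hE => exact mapDomain_pullback_of_mem_integral hr hr' hφ hφk hE
  | zero => simp
  | add E E' _ _ hE hE' =>
    rw [map_add, Finsupp.mapDomain_add, Finsupp.mapDomain_add, map_add, hE, hE']
  | neg E _ hE =>
    rw [map_neg, ← Finsupp.mapDomain.addMonoidHom_apply, ← Finsupp.mapDomain.addMonoidHom_apply,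
      map_neg, map_neg, Finsupp.mapDomain.addMonoidHom_apply,
      Finsupp.mapDomain.addMonoidHom_apply, map_neg, hE]

/-- **(T2), divisor form.**  `r'_* ∘ pullback` and `pullback ∘ r_*` agree on every divisor a
nonzero multiple of which is principal. -/
theorem mapDomain_pullback_of_nsmul_mem_principal (hr : IsPlaceReductionAlong A π N r)
    (hr' : IsPlaceReductionAlong A π (N * M) r')
    (hgen : PrincipalGeneratedByIntegral A π N)
    (hφ : (heckeAlphaBar L N M).toRingHom.IsIntegral)
    (hφk : (lvlK k N M).toRingHom.IsIntegral)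
    {m : ℕ} (hm : m ≠ 0)
    {D : Divisor L (laurentBaseChange L (modularFunctionFieldFull N))}
    (hD : m • D ∈
      Divisor.principal (K := L) (F := laurentBaseChange L (modularFunctionFieldFull N))) :
    Finsupp.mapDomain r' (Divisor.pullbackAlong (heckeAlphaBar L N M) hφ D) =
      Divisor.pullbackAlong (lvlK k N M) hφk (Finsupp.mapDomain r D) := by
  apply divisor_eq_of_nsmul_eq hm
  have h := mapDomain_pullback_of_mem_principal hr hr' hgen hφ hφk hD
  rw [map_nsmul, ← Finsupp.mapDomain.addMonoidHom_apply, ← Finsupp.mapDomain.addMonoidHom_apply,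
    map_nsmul, map_nsmul, map_nsmul] at h
  exact h

/-- If a torsion class of level `N` reduces to zero, so does its pullback to level `N * M`
(statement on divisors: the reduction of the pulled back divisor is principal). -/
theorem isPrincipal_mapDomain_pullback (hr : IsPlaceReductionAlong A π N r)
    (hr' : IsPlaceReductionAlong A π (N * M) r')
    (hgen : PrincipalGeneratedByIntegral A π N)
    (hφ : (heckeAlphaBar L N M).toRingHom.IsIntegral)
    (hφk : (lvlK k N M).toRingHom.IsIntegral)
    {m : ℕ} (hm : m ≠ 0)
    {D : Divisor L (laurentBaseChange L (modularFunctionFieldFull N))}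
    (hD : m • D ∈
      Divisor.principal (K := L) (F := laurentBaseChange L (modularFunctionFieldFull N)))
    (hred : Divisor.IsPrincipal (Finsupp.mapDomain r D)) :
    Divisor.IsPrincipal
      (Finsupp.mapDomain r' (Divisor.pullbackAlong (heckeAlphaBar L N M) hφ D)) := by
  rw [mapDomain_pullback_of_nsmul_mem_principal hr hr' hgen hφ hφk hm hD]
  exact Divisor.isPrincipal_pullbackAlong _ hφk hred

/-- **(T2), class form: level change for the injectivity of reduction on torsion.**
If reduction at level `N * M` is injective on the `m`-torsion and `[F' : F]` is prime to `m`,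
then reduction at level `N` is injective on the `m`-torsion. -/
theorem reduction_injective_of_level (hr : IsPlaceReductionAlong A π N r)
    (hr' : IsPlaceReductionAlong A π (N * M) r')
    (hgen : PrincipalGeneratedByIntegral A π N)
    (hgen' : PrincipalGeneratedByIntegral A π (N * M))
    (hφ : (heckeAlphaBar L N M).toRingHom.IsIntegral)
    (hφk : (lvlK k N M).toRingHom.IsIntegral)
    (hFI : FundamentalIdentityAlong L (heckeAlphaBar L N M) hφ)
    (hfin : FiniteAlong L (heckeAlphaBar L N M))
    (hNF : NormFormulaAlong L (heckeAlphaBar L N M) hfin)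
    (hsum : ∀ v : Place L (laurentBaseChange L (modularFunctionFieldFull N)),
      ∑ w ∈ Place.fiberAlong (heckeAlphaBar L N M) hφ v,
        (Place.ramificationIndexAlong (heckeAlphaBar L N M) w : ℤ) *
          (Place.inertiaDegAlong (heckeAlphaBar L N M) hφ w : ℤ)
        = (finrankAlong L (heckeAlphaBar L N M) : ℤ))
    {m : ℕ} (hm : m ≠ 0) (hcop : Nat.Coprime (finrankAlong L (heckeAlphaBar L N M)) m)
    (hinj' : ∀ z' : Pic0 L (laurentBaseChange L (modularFunctionFieldFull (N * M))),
      m • z' = 0 → reductionPic0Along r' hr' hgen' z' = 0 → z' = 0)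
    (z : Pic0 L (laurentBaseChange L (modularFunctionFieldFull N)))
    (hmz : m • z = 0) (hz : reductionPic0Along r hr hgen z = 0) : z = 0 := by
  classical
  obtain ⟨D, rfl⟩ := Pic0.mk_surjective z
  -- `m • D` is principal
  have hmD : m • (D : Divisor L (laurentBaseChange L (modularFunctionFieldFull N))) ∈
      Divisor.principal (K := L) (F := laurentBaseChange L (modularFunctionFieldFull N)) := by
    have h0 : Pic0.mk (m • D) = 0 := hmz
    have hmem := (QuotientAddGroup.eq_zero_iff (m • D)).mp h0
    rw [AddSubgroup.mem_addSubgroupOf] at hmem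
    simpa using hmem
  -- the reduction of `D` is principal
  have hred : Divisor.IsPrincipal (Finsupp.mapDomain r
      (D : Divisor L (laurentBaseChange L (modularFunctionFieldFull N)))) := by
    rw [reductionPic0Along_mk] at hz
    have hmem := (QuotientAddGroup.eq_zero_iff _).mp hz
    rw [AddSubgroup.mem_addSubgroupOf, coe_reductionDegZeroAlong] at hmem
    exact hmem
  -- the pulled back class
  set D' : Divisor L (laurentBaseChange L (modularFunctionFieldFull (N * M))) :=
    Divisor.pullbackAlong (heckeAlphaBar L N M) hφ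
      (D : Divisor L (laurentBaseChange L (modularFunctionFieldFull N))) with hD'
  have hD'0 : D' ∈ Divisor.degZero (K := L)
      (F := laurentBaseChange L (modularFunctionFieldFull (N * M))) :=
    Divisor.pullbackAlong_mem_degZero _ hφ hFI D.2
  have hmD' : m • D' ∈ Divisor.principal (K := L)
      (F := laurentBaseChange L (modularFunctionFieldFull (N * M))) := by
    rw [hD', ← map_nsmul]
    exact Divisor.isPrincipal_pullbackAlong _ hφ hmD
  have hz' : Pic0.mk (⟨D', hD'0⟩ : Divisor.degZero (K := L)
      (F := laurentBaseChange L (modularFunctionFieldFull (N * M)))) = 0 := by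
    apply hinj'
    · show Pic0.mk (m • (⟨D', hD'0⟩ : Divisor.degZero (K := L)
        (F := laurentBaseChange L (modularFunctionFieldFull (N * M))))) = 0
      refine (QuotientAddGroup.eq_zero_iff _).mpr ?_
      rw [AddSubgroup.mem_addSubgroupOf]
      simpa using hmD'
    · rw [reductionPic0Along_mk]
      refine (QuotientAddGroup.eq_zero_iff _).mpr ?_
      rw [AddSubgroup.mem_addSubgroupOf, coe_reductionDegZeroAlong]
      exact isPrincipal_mapDomain_pullback hr hr' hgen hφ hφk hm hmD hred
  have hD'p : D'.IsPrincipal := by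
    have hmem := (QuotientAddGroup.eq_zero_iff _).mp hz'
    rw [AddSubgroup.mem_addSubgroupOf] at hmem
    exact hmem
  -- push forward: `n • D` is principal
  have hnD : finrankAlong L (heckeAlphaBar L N M) •
      (D : Divisor L (laurentBaseChange L (modularFunctionFieldFull N))) ∈
      Divisor.principal (K := L) (F := laurentBaseChange L (modularFunctionFieldFull N)) := by
    rw [← pushforwardAlong_pullbackAlong _ hφ hsum]
    exact Divisor.isPrincipal_pushforwardAlong _ hφ hfin hNF hD'p
  have hnz : finrankAlong L (heckeAlphaBar L N M) • Pic0.mk D = 0 := by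
    show Pic0.mk (finrankAlong L (heckeAlphaBar L N M) • D) = 0
    refine (QuotientAddGroup.eq_zero_iff _).mpr ?_
    rw [AddSubgroup.mem_addSubgroupOf]
    simpa using hnD
  -- coprimality
  have h1 : addOrderOf (Pic0.mk D) ∣ finrankAlong L (heckeAlphaBar L N M) :=
    addOrderOf_dvd_of_nsmul_eq_zero hnz
  have h2 : addOrderOf (Pic0.mk D) ∣ m := addOrderOf_dvd_of_nsmul_eq_zero hmz
  have h3 : addOrderOf (Pic0.mk D) ∣ 1 := by
    have := Nat.dvd_gcd h1 h2
    rwa [hcop.gcd_eq_one] at this
  exact AddMonoid.addOrderOf_eq_one_iff.mp (Nat.dvd_one.mp h3)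

end T2

section S18

variable (N M : ℕ) [NeZero N] [NeZero M] (ℓ : ℕ)
variable (A : ValuationSubring (AlgebraicClosure ℚ))

/-- The conclusion of S18 at level `N` for the prime `ℓ` and the place `A`. -/
def S18At : Prop :=
  ∀ m : ℕ, ¬ ℓ ∣ m → ∀ z : JZero N, m • z = 0 → reductionModL A N z = 0 → z = 0

variable {N ℓ A}

omit [NeZero N] in
/-- **(T1) in the shape of S18**: it suffices to prove the injectivity on prime-to-`ℓ` torsion
for ONE place reduction `r₀` satisfying the prelude axioms. -/
theorem s18At_of_placeReduction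
    (r₀ : Place (AlgebraicClosure ℚ) (modularFunctionFieldBar N) →
      Place (IsLocalRing.ResidueField A)
        (modularFunctionFieldFullC (IsLocalRing.ResidueField A) N))
    (hr₀ : IsPlaceReductionModL A N r₀)
    (hgen : PrincipalGeneratedByIntegral A (IsLocalRing.residue A) N)
    (hinj : ∀ m : ℕ, ¬ ℓ ∣ m → ∀ z : JZero N, m • z = 0 →
      reductionPic0Along r₀ hr₀ hgen z = 0 → z = 0) :
    S18At N ℓ A := by
  intro m hm z hmz hz
  have hm0 : m ≠ 0 := fun h0 => hm (h0 ▸ dvd_zero ℓ)
  have h : ReductionInputsModL A N := ⟨r₀, hr₀, hgen⟩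
  apply hinj m hm z hmz
  rw [← hz, reductionModL, reductionAlong_eq h]
  exact reductionPic0Along_eq_of_nsmul_eq_zero hr₀ h.choose_spec.1 hgen hm0 z hmz

variable {M}

/-- **(T2) in the shape of S18**: S18 at level `N` follows from S18 at the auxiliary level
`N * M` as soon as the reduction inputs exist at both levels and `[F_{NM} : F_N]` is a power
of `ℓ`. -/
theorem s18At_of_level
    [HasPrincipalDivisors (AlgebraicClosure ℚ) (modularFunctionFieldBar (N * M))]
    [HasPrincipalDivisors (IsLocalRing.ResidueField A)
      (modularFunctionFieldFullC (IsLocalRing.ResidueField A) (N * M))]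
    (hℓ : ℓ.Prime)
    (h : ReductionInputsModL A N) (h' : ReductionInputsModL A (N * M))
    (hφ : (heckeAlphaBar (AlgebraicClosure ℚ) N M).toRingHom.IsIntegral)
    (hφk : (lvlK (IsLocalRing.ResidueField A) N M).toRingHom.IsIntegral)
    (hFI : FundamentalIdentityAlong (AlgebraicClosure ℚ)
      (heckeAlphaBar (AlgebraicClosure ℚ) N M) hφ)
    (hfin : FiniteAlong (AlgebraicClosure ℚ) (heckeAlphaBar (AlgebraicClosure ℚ) N M))
    (hNF : NormFormulaAlong (AlgebraicClosure ℚ) (heckeAlphaBar (AlgebraicClosure ℚ) N M) hfin)
    (hsum : ∀ v : Place (AlgebraicClosure ℚ) (modularFunctionFieldBar N),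
      ∑ w ∈ Place.fiberAlong (heckeAlphaBar (AlgebraicClosure ℚ) N M) hφ v,
        (Place.ramificationIndexAlong (heckeAlphaBar (AlgebraicClosure ℚ) N M) w : ℤ) *
          (Place.inertiaDegAlong (heckeAlphaBar (AlgebraicClosure ℚ) N M) hφ w : ℤ)
        = (finrankAlong (AlgebraicClosure ℚ) (heckeAlphaBar (AlgebraicClosure ℚ) N M) : ℤ))
    (hdeg : ∃ a : ℕ,
      finrankAlong (AlgebraicClosure ℚ) (heckeAlphaBar (AlgebraicClosure ℚ) N M) = ℓ ^ a)
    (hS' : S18At (N * M) ℓ A) : S18At N ℓ A := by
  intro m hm z hmz hz
  have hm0 : m ≠ 0 := fun h0 => hm (h0 ▸ dvd_zero ℓ)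
  obtain ⟨a, ha⟩ := hdeg
  have hcop : Nat.Coprime
      (finrankAlong (AlgebraicClosure ℚ) (heckeAlphaBar (AlgebraicClosure ℚ) N M)) m := by
    rw [ha]
    exact Nat.Coprime.pow_left a ((Nat.Prime.coprime_iff_not_dvd hℓ).mpr hm)
  rw [reductionModL, reductionAlong_eq h] at hz
  refine reduction_injective_of_level h.choose_spec.1 h'.choose_spec.1 h.choose_spec.2
    h'.choose_spec.2 hφ hφk hFI hfin hNF hsum hm0 hcop ?_ z hmz hz
  intro z' hmz' hz'
  apply hS' m hm z' hmz'
  rw [reductionModL, reductionAlong_eq h']
  exact hz'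

end S18

end Fermat.Agent.H9.ESD
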